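import Fermat.Agent.Corollaries.ZetaK.FrobCor

/-!
# The square root of the discriminant

`K` a number field, `ω` an integral basis, `φ` the embeddings of `K` in `ℚ̄`. The determinant of
`(φ_j (ω_i))` is `P - N` with the partial sums `P`, `N` over the even and the odd permutations:
`(P - N) ^ 2 = discr K`, and `σ ∈ Gal(ℚ̄/ℚ)` fixes `P` and `N` if it acts by an even permutation on
the embeddings and exchanges them otherwise. So `P + N` and `P N` are rational integers `a`, `b`, and
`discr K = a ^ 2 - 4 b` (Stickelberger).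
-/

set_option autoImplicit false

namespace Fermat.Agent.Cor.Parity

open NumberField
open Fermat.Agent.Frob Fermat.Agent.Cor.Frob

local notation "Qbar" => AlgebraicClosure ℚ

open Classical in
/-- the part of the Leibniz expansion of a determinant over the permutations of sign `ε` -/
noncomputable def detPart {ι R : Type*} [Fintype ι] [DecidableEq ι] [CommRing R]
    (M : Matrix ι ι R) (ε : ℤˣ) : R :=
  ∑ π : Equiv.Perm ι, if Equiv.Perm.sign π = ε then ∏ i, M i (π i) else 0

theorem det_eq_sub {ι R : Type*} [Fintype ι] [DecidableEq ι] [CommRing R] (M : Matrix ι ι R) :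
    M.det = detPart M 1 - detPart M (-1) := by
  rw [← Matrix.det_transpose, Matrix.det_apply, detPart, detPart, ← Finset.sum_sub_distrib]
  refine Finset.sum_congr rfl fun π _ => ?_
  rcases Int.units_eq_one_or (Equiv.Perm.sign π) with h | h
  · rw [h, if_pos rfl, if_neg (by decide), one_smul, sub_zero]
    rfl
  · rw [h, if_neg (by decide), if_pos rfl, zero_sub, Units.neg_smul, one_smul]
    rfl

theorem detPart_perm {ι R : Type*} [Fintype ι] [DecidableEq ι] [CommRing R] (M : Matrix ι ι R)
    (τ : Equiv.Perm ι) (ε : ℤˣ) :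
    detPart (Matrix.of fun i j => M i (τ j)) ε = detPart M (Equiv.Perm.sign τ * ε) := by
  rw [detPart, detPart]
  refine Fintype.sum_equiv (Equiv.mulLeft τ) _ _ fun π => ?_
  rw [Equiv.coe_mulLeft, map_mul]
  have h1 : Equiv.Perm.sign τ * Equiv.Perm.sign π = Equiv.Perm.sign τ * ε ↔
      Equiv.Perm.sign π = ε := mul_right_inj _
  simp only [h1]
  rfl

theorem map_detPart {ι R S : Type*} [Fintype ι] [DecidableEq ι] [CommRing R] [CommRing S]
    (f : R →+* S) (M : Matrix ι ι R) (ε : ℤˣ) :
    f (detPart M ε) = detPart (Matrix.of fun i j => f (M i j)) ε := by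
  rw [detPart, detPart, map_sum]
  refine Finset.sum_congr rfl fun π _ => ?_
  split_ifs
  · rw [map_prod]
    rfl
  · exact map_zero f

theorem isIntegral_detPart {ι R : Type*} [Fintype ι] [DecidableEq ι] [CommRing R]
    (M : Matrix ι ι R) (hM : ∀ i j, IsIntegral ℤ (M i j)) (ε : ℤˣ) :
    IsIntegral ℤ (detPart M ε) := by
  rw [detPart]
  refine IsIntegral.sum _ fun π _ => ?_
  split_ifs
  · exact IsIntegral.prod _ fun i _ => hM i _
  · exact isIntegral_zero

variable (K : Type*) [Field K] [NumberField K]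

open Classical in
/-- **The square root of the discriminant**, in two parts. -/
theorem exists_detPart : ∃ D : ℤˣ → Qbar, (∀ ε, IsIntegral ℤ (D ε)) ∧
    (D 1 - D (-1)) ^ 2 = ((discr K : ℤ) : Qbar) ∧
    ∀ (σ : GQ) (ε : ℤˣ), σ (D ε) = D (Equiv.Perm.sign (embPerm K σ) * ε) := by
  let ι := Module.Free.ChooseBasisIndex ℤ (𝓞 K)
  have hcard : Fintype.card ι = Fintype.card (K →+* Qbar) := by
    rw [← Nat.card_eq_fintype_card (α := K →+* Qbar), natCard_emb,
      Module.finrank_eq_card_basis (integralBasis K)]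
  let e : ι ≃ (K →+* Qbar) := Fintype.equivOfCardEq hcard
  let M : Matrix ι ι Qbar := Matrix.of fun i j => e j (integralBasis K i)
  refine ⟨detPart M, isIntegral_detPart M fun i j => ?_, ?_, fun σ ε => ?_⟩
  · change IsIntegral ℤ (e j (integralBasis K i))
    rw [integralBasis_apply]
    exact (RingOfIntegers.isIntegral_coe _).map (RingHom.equivRatAlgHom K Qbar (e j))
  · rw [← det_eq_sub]
    have h1 := Algebra.discr_eq_det_embeddingsMatrixReindex_pow_two ℚ Qbar (integralBasis K)
      (e.trans (RingHom.equivRatAlgHom K Qbar))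
    rw [← coe_discr] at h1
    rw [show M = Algebra.embeddingsMatrixReindex ℚ Qbar (integralBasis K)
      (e.trans (RingHom.equivRatAlgHom K Qbar)) from rfl, ← h1]
    simp
  · have h1 : σ (detPart M ε) = (σ : Qbar →+* Qbar) (detPart M ε) := rfl
    rw [h1, map_detPart]
    have h2 : (Matrix.of fun i j => (σ : Qbar →+* Qbar) (M i j)) =
        Matrix.of fun i j => M i ((e.symm.permCongr (embPerm K σ)) j) := by
      ext i j
      change σ (e j (integralBasis K i)) = e (e.symm (embPerm K σ (e j))) (integralBasis K i)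
      rw [Equiv.apply_symm_apply]
      rfl
    rw [h2, detPart_perm, Equiv.Perm.sign_permCongr]

/-- an element of `ℚ̄` which is integral and fixed by `Gal(ℚ̄/ℚ)` is a rational integer -/
theorem exists_int {x : Qbar} (hx : IsIntegral ℤ x) (h : ∀ σ : GQ, σ x = x) :
    ∃ a : ℤ, (a : Qbar) = x := by
  obtain ⟨r, rfl⟩ := IntermediateField.mem_bot.mp ((InfiniteGalois.mem_bot_iff_fixed x).mpr h)
  have h1 : IsIntegral ℤ r :=
    (isIntegral_algebraMap_iff (algebraMap ℚ Qbar).injective).mp hx
  obtain ⟨a, rfl⟩ := IsIntegrallyClosed.isIntegral_iff.mp h1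
  exact ⟨a, by simp⟩

open Classical in
/-- **Stickelberger's theorem**, with the quadratic resolvent: there are integers `a`, `b` with
`discr K = a ^ 2 - 4 b` and a root `P` of `X ^ 2 - a X + b` in `ℚ̄` which is fixed by the `σ` acting
by even permutations on the embeddings, and is sent to the other root by the other `σ`. -/
theorem exists_resolvent : ∃ (a b : ℤ) (P : Qbar), IsIntegral ℤ P ∧ discr K = a ^ 2 - 4 * b ∧
    P ^ 2 = a * P - b ∧
    (∀ σ : GQ, Equiv.Perm.sign (embPerm K σ) = 1 → σ P = P) ∧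
    ∀ σ : GQ, Equiv.Perm.sign (embPerm K σ) = -1 → σ P = a - P := by
  obtain ⟨D, hD, hd, hσ⟩ := exists_detPart K
  have hsw : ∀ σ : GQ, (σ (D 1) = D 1 ∧ σ (D (-1)) = D (-1)) ∨
      (σ (D 1) = D (-1) ∧ σ (D (-1)) = D 1) := by
    intro σ
    rcases Int.units_eq_one_or (Equiv.Perm.sign (embPerm K σ)) with h | h
    · left
      rw [hσ, hσ, h, one_mul, one_mul]
      exact ⟨rfl, rfl⟩
    · right
      rw [hσ, hσ, h, mul_one, neg_one_mul, neg_neg]
      exact ⟨rfl, rfl⟩
  obtain ⟨a, ha⟩ := exists_int ((hD 1).add (hD (-1))) fun σ => by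
    rw [map_add]
    rcases hsw σ with ⟨h1, h2⟩ | ⟨h1, h2⟩
    · rw [h1, h2]
    · rw [h1, h2, add_comm]
  obtain ⟨b, hb⟩ := exists_int ((hD 1).mul (hD (-1))) fun σ => by
    rw [map_mul]
    rcases hsw σ with ⟨h1, h2⟩ | ⟨h1, h2⟩
    · rw [h1, h2]
    · rw [h1, h2, mul_comm]
  refine ⟨a, b, D 1, hD 1, ?_, ?_, fun σ h => ?_, fun σ h => ?_⟩
  · have h1 : ((discr K : ℤ) : Qbar) = ((a ^ 2 - 4 * b : ℤ) : Qbar) := by
      rw [← hd]
      push_cast
      rw [ha, hb]
      ring
    exact_mod_cast h1
  · rw [ha, hb]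
    ring
  · rw [hσ, h, one_mul]
  · rw [hσ, h, mul_one, ha, add_sub_cancel_left]

/-- **Stickelberger's theorem**: the discriminant of a number field is `0` or `1` modulo `4`. -/
theorem discr_mod_four : discr K % 4 = 0 ∨ discr K % 4 = 1 := by
  classical
  obtain ⟨a, b, -, -, h, -⟩ := exists_resolvent K
  rw [h]
  rcases Int.even_or_odd' a with ⟨k, rfl | rfl⟩
  · left
    have : (2 * k) ^ 2 - 4 * b = 4 * (k ^ 2 - b) := by ring
    omega
  · right
    have : (2 * k + 1) ^ 2 - 4 * b = 4 * (k ^ 2 + k - b) + 1 := by ring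
    omega

end Fermat.Agent.Cor.Parity
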