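import Fermat.Agent.Corollaries.Parity.Main
import Fermat.Agent.Corollaries.ZetaK.FrobFinal

/-!
# The parity of the number of prime ideals above `p`

`K` a number field of degree `n`, `r_p` the number of prime ideals of `K` above `p`. All elements of
`Gal(ℚ̄/ℚ)` act on the embeddings of `K` by even permutations iff the discriminant of `K` is a square
(`isSquare_discr_iff`). If it is not a square, then the primes with `n - r_p` even and the primes
with `n - r_p` odd have natural density `1 / 2`.
-/

set_option autoImplicit false

namespace Fermat.Agent.Cor.Parity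

open NumberField IsDedekindDomain
open Fermat.Agent.Frob Fermat.Agent.Classic.Disc Fermat.Agent.Cor.Frob

local notation "Qbar" => AlgebraicClosure ℚ

variable (K : Type*) [Field K] [NumberField K]

open Classical in
/-- The discriminant is a square iff `Gal(ℚ̄/ℚ)` acts by even permutations on the embeddings. -/
theorem isSquare_discr_iff :
    IsSquare (discr K) ↔ ∀ σ : GQ, Equiv.Perm.sign (embPerm K σ) = 1 := by
  obtain ⟨D, hD, hd, hσ⟩ := exists_detPart K
  have hne : D 1 ≠ D (-1) := by
    intro h
    rw [h, sub_self, zero_pow two_ne_zero] at hd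
    exact discr_ne_zero K (by exact_mod_cast hd.symm)
  constructor
  · rintro ⟨m, hm⟩ σ
    have h1 : (D 1 - D (-1)) ^ 2 = (m : Qbar) ^ 2 := by
      rw [hd, hm]
      push_cast
      ring
    have h2 : σ (D 1 - D (-1)) = D 1 - D (-1) := by
      rcases sq_eq_sq_iff_eq_or_eq_neg.mp h1 with h | h
      · rw [h, map_intCast]
      · rw [h, map_neg, map_intCast]
    by_contra h3
    have h4 := (Int.units_eq_one_or _).resolve_left h3
    rw [map_sub, hσ, hσ, h4, mul_one, neg_one_mul, neg_neg] at h2
    have h5 : (2 : Qbar) * (D 1 - D (-1)) = 0 := by linear_combination -h2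
    rcases mul_eq_zero.mp h5 with h6 | h6
    · exact two_ne_zero h6
    · exact hne (sub_eq_zero.mp h6)
  · intro h
    obtain ⟨m, hm⟩ := exists_int ((hD 1).sub (hD (-1))) fun σ => by
      rw [map_sub, hσ, hσ, h σ, one_mul, one_mul]
    refine ⟨m, ?_⟩
    have h1 : ((discr K : ℤ) : Qbar) = ((m * m : ℤ) : Qbar) := by
      rw [← hd, ← hm]
      push_cast
      ring
    exact_mod_cast h1

open Classical in
/-- the sign on the Galois group of the normal closure -/
noncomputable def signK : GalK K →* ℤˣ := Equiv.Perm.sign.comp (GalK K).subtype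

lemma neg_one_pow_cycType (s : Equiv.Perm (K →+* Qbar)) :
    open Classical in Equiv.Perm.sign s =
      (-1) ^ (Module.finrank ℚ K + Multiset.card (cycType K s)) := by
  classical
  have h2 : s.cycleType.sum = s.support.card := Equiv.Perm.sum_cycleType _
  have h3 : s.support.card ≤ Fintype.card (K →+* Qbar) := Finset.card_le_univ _
  have h4 : Fintype.card (K →+* Qbar) = Module.finrank ℚ K := by
    rw [← Nat.card_eq_fintype_card, natCard_emb]
  have h1 : Multiset.card (cycType K s) =
      Multiset.card s.cycleType + (Fintype.card (K →+* Qbar) - s.support.card) := by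
    rw [cycType]
    have h6 : s.partition.parts = s.cycleType +
      Multiset.replicate (Fintype.card (K →+* Qbar) - s.support.card) 1 :=
        Equiv.Perm.parts_partition
    have h7 := congrArg Multiset.card h6
    rw [Multiset.card_add, Multiset.card_replicate] at h7
    convert h7
  rw [Equiv.Perm.sign_of_cycleType, h2, h1]
  have h5 : Module.finrank ℚ K + (Multiset.card s.cycleType +
      (Fintype.card (K →+* Qbar) - s.support.card)) =
      (s.support.card + Multiset.card s.cycleType) +
        2 * (Fintype.card (K →+* Qbar) - s.support.card) := by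
    rw [← h4]
    omega
  rw [h5, pow_add _ (_ + _), pow_mul, neg_one_sq, one_pow, mul_one]

lemma even_iff_sign (s : Equiv.Perm (K →+* Qbar)) :
    open Classical in Even (Module.finrank ℚ K + Multiset.card (cycType K s)) ↔
      Equiv.Perm.sign s = 1 := by
  classical
  rw [neg_one_pow_cycType]
  rcases Nat.even_or_odd (Module.finrank ℚ K + Multiset.card (cycType K s)) with h | h
  · rw [h.neg_one_pow]
    exact ⟨fun _ => rfl, fun _ => h⟩
  · rw [h.neg_one_pow]
    exact ⟨fun h1 => absurd h (Nat.not_odd_iff_even.mpr h1), fun h1 => absurd h1 (by decide)⟩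

/-- If the discriminant is not a square, half of the elements of the Galois group are even. -/
lemma two_mul_card_even (hd : ¬ IsSquare (discr K)) :
    2 * Nat.card {s : GalK K // Even (Module.finrank ℚ K + Multiset.card (cycType K s))} =
      Nat.card (GalK K) := by
  classical
  have h1 : Function.Surjective (signK K) := by
    rw [isSquare_discr_iff] at hd
    push Not at hd
    obtain ⟨σ, hσ⟩ := hd
    have h2 := (Int.units_eq_one_or _).resolve_left hσ
    intro ε
    rcases Int.units_eq_one_or ε with rfl | rfl
    · exact ⟨1, map_one _⟩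
    · exact ⟨⟨embPerm K σ, σ, rfl⟩, h2⟩
  have h2 : Nat.card (GalK K ⧸ (signK K).ker) = 2 := by
    rw [Nat.card_congr (QuotientGroup.quotientKerEquivOfSurjective _ h1).toEquiv,
      Nat.card_eq_fintype_card]
    rfl
  rw [Subgroup.card_eq_card_quotient_mul_card_subgroup (signK K).ker, h2]
  congr 1
  refine Nat.card_congr (Equiv.subtypeEquivRight fun s => ?_)
  rw [even_iff_sign, MonoidHom.mem_ker]
  exact Iff.rfl

/-- **Parity and density**: if the discriminant of `K` is not a square, then `n - r_p` is even for
half of the primes. -/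
theorem hasDensity_even (hd : ¬ IsSquare (discr K)) :
    HasDensity (fun p => Even (Module.finrank ℚ K -
      ((Ideal.span {(p : ℤ)}).primesOver (𝓞 K)).ncard)) (1 / 2) := by
  have h := Final.hasDensity_of_decType K fun m => Even (Module.finrank ℚ K + Multiset.card m)
  have h2 := two_mul_card_even K hd
  have h3 : (Nat.card (GalK K) : ℝ) ≠ 0 := by exact_mod_cast Nat.card_pos.ne'
  have h4 : (Nat.card {s : GalK K // Even (Module.finrank ℚ K +
      Multiset.card (cycType K s))} : ℝ) / Nat.card (GalK K) = 1 / 2 := by
    rw [div_eq_div_iff h3 two_ne_zero, one_mul, mul_comm]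
    exact_mod_cast h2
  rw [h4] at h
  refine h.congr one_ne_zero fun p hp _ => ?_
  rw [card_decType, ncard_primesOver hp]
  exact (parity_iff (card_above_le' K hp)).1

/-- **Parity and density**, the odd case. -/
theorem hasDensity_odd (hd : ¬ IsSquare (discr K)) :
    HasDensity (fun p => Odd (Module.finrank ℚ K -
      ((Ideal.span {(p : ℤ)}).primesOver (𝓞 K)).ncard)) (1 / 2) := by
  classical
  have h := Final.hasDensity_of_decType K fun m => Odd (Module.finrank ℚ K + Multiset.card m)
  have h2 := two_mul_card_even K hd
  have h3 : (Nat.card (GalK K) : ℝ) ≠ 0 := by exact_mod_cast Nat.card_pos.ne'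
  have h5 : Nat.card {s : GalK K // Odd (Module.finrank ℚ K + Multiset.card (cycType K s))} =
      Nat.card {s : GalK K // Even (Module.finrank ℚ K + Multiset.card (cycType K s))} := by
    have h6 : Nat.card {s : GalK K // Even (Module.finrank ℚ K +
        Multiset.card (cycType K s))} + Nat.card {s : GalK K // Odd (Module.finrank ℚ K +
        Multiset.card (cycType K s))} = Nat.card (GalK K) := by
      rw [← Nat.card_sum]
      refine Nat.card_congr ((Equiv.sumCongr (Equiv.refl _)
        (Equiv.subtypeEquivRight fun s => Nat.not_even_iff_odd.symm)).trans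
          (Equiv.sumCompl fun s : GalK K => Even (Module.finrank ℚ K +
            Multiset.card (cycType K s))))
    omega
  have h4 : (Nat.card {s : GalK K // Odd (Module.finrank ℚ K +
      Multiset.card (cycType K s))} : ℝ) / Nat.card (GalK K) = 1 / 2 := by
    rw [h5, div_eq_div_iff h3 two_ne_zero, one_mul, mul_comm]
    exact_mod_cast h2
  rw [h4] at h
  refine h.congr one_ne_zero fun p hp _ => ?_
  rw [card_decType, ncard_primesOver hp]
  exact (parity_iff (card_above_le' K hp)).2

/-- If the discriminant is a square, then `n - r_p` is even for every unramified prime. -/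
theorem even_of_isSquare_discr (hd : IsSquare (discr K)) {p : ℕ} (hp : p.Prime)
    (h : ¬ (p : ℤ) ∣ discr K) :
    Even (Module.finrank ℚ K - ((Ideal.span {(p : ℤ)}).primesOver (𝓞 K)).ncard) := by
  classical
  obtain ⟨A, hA, φ, hφ⟩ := exists_frobenius p hp
  have h1 := sign_embPerm (K := K) hp h hA hφ
  rw [(isSquare_discr_iff K).mp hd φ] at h1
  rw [ncard_primesOver hp, ← (parity_iff (card_above_le' K hp)).1]
  by_contra h2
  rw [(Nat.not_even_iff_odd.mp h2).neg_one_pow] at h1
  exact absurd h1 (by decide)

/-- **Cubic fields**: an odd unramified prime `p` has exactly two prime ideals above it iff the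
discriminant is not a square modulo `p`. -/
theorem ncard_eq_two_iff_of_cubic (hK : Module.finrank ℚ K = 3) {p : ℕ} [Fact p.Prime]
    (hp2 : p ≠ 2) (h : ¬ (p : ℤ) ∣ discr K) :
    ((Ideal.span {(p : ℤ)}).primesOver (𝓞 K)).ncard = 2 ↔ legendreSym p (discr K) = -1 := by
  have hp : p.Prime := Fact.out
  have h1 : 0 < ((Ideal.span {(p : ℤ)}).primesOver (𝓞 K)).ncard := by
    rw [ncard_primesOver hp, Finset.card_pos]
    by_contra h0
    rw [Finset.not_nonempty_iff_eq_empty] at h0
    have h2 := (fSum_eq_iff (K := K) hp).mpr h
    rw [fSum, h0, Finset.sum_empty, hK] at h2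
    omega
  have h2 : ((Ideal.span {(p : ℤ)}).primesOver (𝓞 K)).ncard ≤ 3 := by
    rw [ncard_primesOver hp, ← hK]
    exact card_above_le' K hp
  rw [legendreSym_discr K hp2 h, hK]
  interval_cases ((Ideal.span {(p : ℤ)}).primesOver (𝓞 K)).ncard <;> simp

end Fermat.Agent.Cor.Parity
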