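import Fermat.Agent.Corollaries.ZetaK.CycleType
import Fermat.Agent.Corollaries.ChebK.FacFin

/-!
# Stickelberger's parity theorem over finite fields

`k` a finite field of odd characteristic, `f ∈ k[X]` a separable polynomial of degree `n` with `r`
irreducible factors. The discriminant of `f` is a square in `k` iff `n - r` is even.
-/

set_option autoImplicit false

open Polynomial

namespace Fermat.Agent.Cor.Parity

/-! ### The discriminant of a polynomial and its roots -/

section Discr

/-- Base change of the discriminant of a monic polynomial. -/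
theorem discr_map_of_monic {R S : Type*} [CommRing R] [CommRing S] [Nontrivial S] (j : R →+* S)
    {f : R[X]} (hf : f.Monic) : (f.map j).discr = j f.discr := by
  have : Nontrivial R := j.domain_nontrivial
  rcases Nat.eq_zero_or_pos f.natDegree with h0 | h0
  · rw [eq_one_of_monic_natDegree_zero hf h0, Polynomial.map_one, ← C_1, discr_C, ← C_1, discr_C,
      map_one]
  · have hd : (f.map j).natDegree = f.natDegree := hf.natDegree_map j
    have h1 := resultant_deriv (natDegree_pos_iff_degree_pos.mp h0)
    have h2 := resultant_deriv (f := f.map j) (natDegree_pos_iff_degree_pos.mp (by rwa [hd]))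
    rw [derivative_map, hd, resultant_map_map, h1, map_mul, map_mul, hf.leadingCoeff, map_one,
      (hf.map j).leadingCoeff, mul_one, mul_one, map_pow, map_neg, map_one] at h2
    have h3 : (-1 : S) ^ (f.natDegree * (f.natDegree - 1) / 2) *
        (-1) ^ (f.natDegree * (f.natDegree - 1) / 2) = 1 := by
      rw [← mul_pow, neg_one_mul, neg_neg, one_pow]
    calc (f.map j).discr = (-1 : S) ^ (f.natDegree * (f.natDegree - 1) / 2) *
        ((-1) ^ (f.natDegree * (f.natDegree - 1) / 2) * (f.map j).discr) := by
          rw [← mul_assoc, h3, one_mul]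
      _ = j f.discr := by rw [← h2, ← mul_assoc, h3, one_mul]

/-- Base change of the discriminant along a map of fields. -/
theorem discr_map_of_field {k κ : Type*} [Field k] [Field κ] (j : k →+* κ) {f : k[X]}
    (h0 : 0 < f.natDegree) : (f.map j).discr = j f.discr := by
  have hd : (f.map j).natDegree = f.natDegree := natDegree_map j
  have h1 := resultant_deriv (natDegree_pos_iff_degree_pos.mp h0)
  have h2 := resultant_deriv (f := f.map j) (natDegree_pos_iff_degree_pos.mp (by rwa [hd]))
  have hl : (f.map j).leadingCoeff = j f.leadingCoeff := leadingCoeff_map j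
  rw [derivative_map, hd, resultant_map_map, h1, map_mul, map_mul, hl, map_pow, map_neg,
    map_one] at h2
  have h3 : (-1 : κ) ^ (f.natDegree * (f.natDegree - 1) / 2) * j f.leadingCoeff ≠ 0 := by
    refine mul_ne_zero (pow_ne_zero _ (neg_ne_zero.mpr one_ne_zero)) ?_
    rw [Ne, map_eq_zero, leadingCoeff_eq_zero]
    rintro rfl
    simp at h0
  exact (mul_left_cancel₀ h3 h2).symm

lemma prod_erase_eq {R : Type*} [CommRing R] {n : ℕ} (α : Fin n → R) :
    ∏ i, ∏ j ∈ Finset.univ.erase i, (α i - α j) =
      (-1) ^ (n * (n - 1) / 2) * (∏ i, ∏ j ∈ Finset.Ioi i, (α j - α i)) ^ 2 := by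
  classical
  have h1 : ∀ i : Fin n, Finset.univ.erase i = Finset.Ioi i ∪ Finset.Iio i := by
    intro i
    ext j
    simp only [Finset.mem_erase, Finset.mem_univ, and_true, Finset.mem_union, Finset.mem_Ioi,
      Finset.mem_Iio]
    exact ⟨fun h => (lt_or_gt_of_ne h).symm, fun h => h.elim (fun h => h.ne') fun h => h.ne⟩
  have h2 : ∀ i : Fin n, Disjoint (Finset.Ioi i) (Finset.Iio i) := by
    intro i
    rw [Finset.disjoint_left]
    intro j hj hj'
    exact absurd (Finset.mem_Ioi.mp hj) (Finset.mem_Iio.mp hj').le.not_gt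
  have h3 : ∏ i, ∏ j ∈ Finset.Iio i, (α i - α j) = ∏ i, ∏ j ∈ Finset.Ioi i, (α j - α i) := by
    refine Finset.prod_comm' fun i j => ?_
    simp only [Finset.mem_univ, true_and, Finset.mem_Iio, Finset.mem_Ioi, and_true]
  have h4 : ∏ i, ∏ j ∈ Finset.Ioi i, (α i - α j) =
      (-1) ^ (n * (n - 1) / 2) * ∏ i, ∏ j ∈ Finset.Ioi i, (α j - α i) := by
    have h5 : ∀ i : Fin n, ∏ j ∈ Finset.Ioi i, (α i - α j) =
        (-1) ^ (n - 1 - (i : ℕ)) * ∏ j ∈ Finset.Ioi i, (α j - α i) := by
      intro i
      rw [← Fin.card_Ioi, ← Finset.prod_const, ← Finset.prod_mul_distrib]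
      exact Finset.prod_congr rfl fun j _ => by ring
    rw [Finset.prod_congr rfl fun i _ => h5 i, Finset.prod_mul_distrib, Finset.prod_pow_eq_pow_sum]
    congr 2
    rw [Fin.sum_univ_eq_sum_range (fun i => n - 1 - i) n, Finset.sum_range_reflect (fun i => i) n,
      Finset.sum_range_id]
  rw [Finset.prod_congr rfl fun i _ => by rw [h1 i, Finset.prod_union (h2 i)],
    Finset.prod_mul_distrib, h3, h4]
  ring

/-- **The discriminant in terms of the roots.** -/
theorem discr_eq_vandermonde {κ : Type*} [Field κ] {n : ℕ} (hn : 0 < n) {c : κ} (hc : c ≠ 0)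
    (α : Fin n → κ) : (C c * ∏ i, (X - C (α i))).discr =
      c ^ (2 * n - 2) * (Matrix.vandermonde α).det ^ 2 := by
  classical
  set f : κ[X] := C c * ∏ i, (X - C (α i)) with hf
  have hmon : (∏ i, (X - C (α i))).Monic := monic_prod_of_monic _ _ fun i _ => monic_X_sub_C _
  have hdeg : f.natDegree = n := by
    rw [hf, natDegree_C_mul hc, natDegree_prod_of_monic _ _ fun i _ => monic_X_sub_C _]
    simp
  have hlead : f.leadingCoeff = c := by
    rw [hf, leadingCoeff_mul, leadingCoeff_C, hmon.leadingCoeff, mul_one]
  have hspl : f.Splits := by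
    rw [hf]
    exact (Splits.C c).mul (Splits.prod fun i _ => Splits.X_sub_C _)
  have hroots : f.roots = Finset.univ.val.map α := by
    rw [hf, roots_C_mul _ hc, roots_prod _ _ (Finset.prod_ne_zero_iff.mpr
      fun i _ => X_sub_C_ne_zero _)]
    simp only [roots_X_sub_C]
    exact Multiset.bind_singleton _ _
  have hder : ∀ i, f.derivative.eval (α i) = c * ∏ j ∈ Finset.univ.erase i, (α i - α j) := by
    intro i
    rw [hf, derivative_C_mul, eval_mul, eval_C, derivative_prod_finset, eval_finsetSum,
      Finset.sum_eq_single i]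
    · rw [eval_mul, derivative_X_sub_C, eval_one, mul_one, eval_prod]
      congr 1
      exact Finset.prod_congr rfl fun j _ => by rw [eval_sub, eval_X, eval_C]
    · intro j _ hj
      rw [eval_mul, eval_prod, Finset.prod_eq_zero (Finset.mem_erase.mpr
        ⟨hj.symm, Finset.mem_univ i⟩) (by rw [eval_sub, eval_X, eval_C, sub_self]), zero_mul]
    · intro h
      exact absurd (Finset.mem_univ i) h
  have h1 := resultant_deriv (f := f) (natDegree_pos_iff_degree_pos.mp (by rwa [hdeg]))
  have h2 := resultant_eq_prod_eval f f.derivative (n - 1)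
    ((natDegree_derivative_le f).trans_eq (by rw [hdeg])) hspl
  rw [hdeg] at h1 h2
  rw [h1, hlead, hroots, Multiset.map_map] at h2
  have h3 : (Finset.univ.val.map ((fun x => eval x f.derivative) ∘ α)).prod =
      c ^ n * ((-1) ^ (n * (n - 1) / 2) * (Matrix.vandermonde α).det ^ 2) := by
    change ∏ i, eval (α i) f.derivative = _
    rw [Finset.prod_congr rfl fun i _ => hder i, Finset.prod_mul_distrib, Finset.prod_const,
      Finset.card_univ, Fintype.card_fin, prod_erase_eq, Matrix.det_vandermonde]
  rw [h3] at h2
  have h4 : (-1 : κ) ^ (n * (n - 1) / 2) * c ≠ 0 :=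
    mul_ne_zero (pow_ne_zero _ (neg_ne_zero.mpr one_ne_zero)) hc
  refine mul_left_cancel₀ h4 (h2.trans ?_)
  obtain ⟨m, rfl⟩ : ∃ m, n = m + 1 := ⟨n - 1, by omega⟩
  rw [show 2 * (m + 1) - 2 = m + m by omega, show m + 1 - 1 = m by omega, pow_add, pow_succ]
  ring

theorem exists_fin_map {κ : Type*} (s : Multiset κ) {n : ℕ} (h : Multiset.card s = n) :
    ∃ α : Fin n → κ, s = Finset.univ.val.map α := by
  subst h
  induction s using Quotient.inductionOn with
  | h l =>
    refine ⟨l.get, ?_⟩
    have h1 : Finset.univ.val.map l.get = (l : Multiset κ) := by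
      rw [Fin.univ_val_map, List.ofFn_get]
    exact h1.symm

/-- **The discriminant of a polynomial over a field is non-zero iff the polynomial is
separable.** -/
theorem discr_ne_zero_iff {k : Type*} [Field k] {f : k[X]} (hf : f ≠ 0) :
    f.discr ≠ 0 ↔ f.Separable := by
  rcases Nat.eq_zero_or_pos f.natDegree with h0 | h0
  · have h1 := eq_C_of_natDegree_eq_zero h0
    have h2 : f.coeff 0 ≠ 0 := by
      intro h
      rw [h, C_0] at h1
      exact hf h1
    rw [h1, discr_C, separable_C]
    exact ⟨fun _ => h2.isUnit, fun _ => one_ne_zero⟩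
  set F := f.map (algebraMap k (AlgebraicClosure k)) with hF
  have hF0 : F ≠ 0 := (Polynomial.map_ne_zero_iff
    (algebraMap k (AlgebraicClosure k)).injective).mpr hf
  have hspl : F.Splits := IsAlgClosed.splits F
  have hcard : Multiset.card F.roots = f.natDegree := by
    rw [← hspl.natDegree_eq_card_roots, hF, natDegree_map]
  obtain ⟨α, hα⟩ := exists_fin_map F.roots hcard
  have h4 := hspl.eq_prod_roots
  rw [hα, Multiset.map_map] at h4
  have h5 : F = C F.leadingCoeff * ∏ i, (X - C (α i)) := h4
  have hc : F.leadingCoeff ≠ 0 := leadingCoeff_ne_zero.mpr hF0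
  have h6 := discr_eq_vandermonde h0 hc α
  rw [← h5, hF, discr_map_of_field _ h0] at h6
  have h7 : F.Separable ↔ Function.Injective α := by
    rw [← separable_prod_X_sub_C_iff, h5]
    refine ⟨fun h => h.of_mul_right, fun h => ?_⟩
    exact Separable.mul ((separable_C _).mpr hc.isUnit) h
      ⟨C F.leadingCoeff⁻¹, 0, by
        rw [zero_mul, add_zero, ← C_mul, inv_mul_cancel₀ hc, C_1]⟩
  rw [← separable_map (algebraMap k (AlgebraicClosure k)), h7,
    ← Matrix.det_vandermonde_ne_zero_iff, ← (map_ne_zero_iff (algebraMap k (AlgebraicClosure k))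
      (algebraMap k (AlgebraicClosure k)).injective), h6]
  exact ⟨fun h h' => h (by rw [h', zero_pow two_ne_zero, mul_zero]),
    fun h => mul_ne_zero (pow_ne_zero _ hc) (pow_ne_zero _ h)⟩

end Discr

/-! ### Frobenius on the roots -/

section Roots

variable {k : Type*} [Field k] [Finite k]

local notation "kbar" => AlgebraicClosure k

omit [Finite k] in
/-- the roots of a separable polynomial, numbered -/
theorem exists_roots {f : k[X]} (hf : f.Separable) : ∃ α : Fin f.natDegree → kbar,
    Function.Injective α ∧ (f.map (algebraMap k kbar)).roots = Finset.univ.val.map α ∧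
    f.map (algebraMap k kbar) =
      C (algebraMap k kbar f.leadingCoeff) * ∏ i, (X - C (α i)) := by
  classical
  set F := f.map (algebraMap k kbar) with hF
  have hnd : F.roots.Nodup := nodup_roots (Separable.map hf)
  have hspl : F.Splits := IsAlgClosed.splits F
  have hcard : Multiset.card F.roots = f.natDegree := by
    rw [← hspl.natDegree_eq_card_roots, hF, natDegree_map]
  have hc : Fintype.card {x // x ∈ F.roots.toFinset} = f.natDegree := by
    rw [Fintype.card_coe, Multiset.toFinset_card_of_nodup hnd, hcard]
  let e : Fin f.natDegree ≃ {x // x ∈ F.roots.toFinset} := (Fintype.equivFinOfCardEq hc).symm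
  have hroots : F.roots = Finset.univ.val.map fun i => (e i : kbar) := by
    have h1 : F.roots = F.roots.toFinset.val := by
      rw [Multiset.toFinset_val, hnd.dedup]
    have h2 : (Finset.univ.val.map fun i => (e i : kbar)) = F.roots.toFinset.val := by
      have h3 : F.roots.toFinset = Finset.univ.map ⟨fun i => (e i : kbar),
          Subtype.val_injective.comp e.injective⟩ := by
        ext x
        rw [Finset.mem_map]
        constructor
        · intro hx
          exact ⟨e.symm ⟨x, hx⟩, Finset.mem_univ _, by simp⟩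
        · rintro ⟨i, -, rfl⟩
          exact (e i).2
      exact (congrArg Finset.val h3).symm
    rw [h2, ← h1]
  refine ⟨fun i => e i, Subtype.val_injective.comp e.injective, hroots, ?_⟩
  have h4 := hspl.eq_prod_roots
  have h5 : F.leadingCoeff = algebraMap k kbar f.leadingCoeff := leadingCoeff_map _
  rw [hroots, Multiset.map_map, h5] at h4
  exact h4

/-- An element `y` with `y ^ #k = y` lies in `k`. -/
theorem exists_eq_of_pow {y : kbar} (hy : y ^ Nat.card k = y) : ∃ x : k, algebraMap k kbar x = y := by
  classical
  have : Fintype k := Fintype.ofFinite k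
  rw [Nat.card_eq_fintype_card] at hy
  have hq : 1 < Fintype.card k := Fintype.one_lt_card
  have hP : (X ^ Fintype.card k - X : kbar[X]) ≠ 0 :=
    FiniteField.X_pow_card_sub_X_ne_zero kbar hq
  have hcard : (Finset.univ.image (algebraMap k kbar)).card = Fintype.card k := by
    rw [Finset.card_image_of_injective _ (algebraMap k kbar).injective, Finset.card_univ]
  have hsub : Finset.univ.image (algebraMap k kbar) ⊆
      (X ^ Fintype.card k - X : kbar[X]).roots.toFinset := by
    intro z hz
    obtain ⟨x, -, rfl⟩ := Finset.mem_image.mp hz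
    rw [Multiset.mem_toFinset, mem_roots hP]
    simp [IsRoot, ← map_pow, FiniteField.pow_card]
  have heq := Finset.eq_of_subset_of_card_le hsub (by
    rw [hcard]
    refine (Multiset.toFinset_card_le _).trans ((card_roots' _).trans ?_)
    rw [FiniteField.X_pow_card_sub_X_natDegree_eq kbar hq])
  have hy : y ∈ Finset.univ.image (algebraMap k kbar) := by
    rw [heq, Multiset.mem_toFinset, mem_roots hP]
    simp [IsRoot, hy]
  obtain ⟨x, -, hx⟩ := Finset.mem_image.mp hy
  exact ⟨x, hx⟩

/-- the sign of a permutation and the number of its cycles -/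
theorem sign_eq_parts {ι : Type*} [Fintype ι] [DecidableEq ι] (s : Equiv.Perm ι) :
    Equiv.Perm.sign s = (-1) ^ (Fintype.card ι + Multiset.card s.partition.parts) := by
  have h2 : s.cycleType.sum = s.support.card := Equiv.Perm.sum_cycleType _
  have h3 : s.support.card ≤ Fintype.card ι := Finset.card_le_univ _
  rw [Equiv.Perm.sign_of_cycleType, h2, Equiv.Perm.parts_partition, Multiset.card_add,
    Multiset.card_replicate]
  have h5 : Fintype.card ι + (Multiset.card s.cycleType + (Fintype.card ι - s.support.card)) =
      (s.support.card + Multiset.card s.cycleType) + 2 * (Fintype.card ι - s.support.card) := by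
    omega
  rw [h5, pow_add _ (_ + _), pow_mul, neg_one_sq, one_pow, mul_one]

open UniqueFactorizationMonoid in
/-- **Frobenius on the roots**: the permutation of the roots and its cycle type. -/
theorem exists_perm {f : k[X]} (hf : f.Separable) {α : Fin f.natDegree → kbar}
    (hα : Function.Injective α)
    (hroots : (f.map (algebraMap k kbar)).roots = Finset.univ.val.map α) :
    ∃ τ : Equiv.Perm (Fin f.natDegree), (∀ i, α (τ i) = α i ^ Nat.card k) ∧
      τ.partition.parts = (factors f).map natDegree := by
  classical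
  have hf0 : f ≠ 0 := hf.ne_zero
  have hF0 : f.map (algebraMap k kbar) ≠ 0 := (Polynomial.map_ne_zero_iff
    (algebraMap k kbar).injective).mpr hf0
  have : Fintype k := Fintype.ofFinite k
  have hcardk : Nat.card k = Fintype.card k := Nat.card_eq_fintype_card
  have hmem : ∀ x, aeval x f = 0 ↔ ∃ i, α i = x := by
    intro x
    rw [aeval_def, eval₂_eq_eval_map, ← IsRoot.def, ← mem_roots hF0, hroots, Multiset.mem_map]
    exact ⟨fun ⟨i, _, h⟩ => ⟨i, h⟩, fun ⟨i, h⟩ => ⟨i, Finset.mem_univ i, h⟩⟩
  have hex : ∀ i, ∃ j, α j = α i ^ Nat.card k := by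
    intro i
    have h1 : α i ^ Nat.card k = FiniteField.frobeniusAlgHom k kbar (α i) := by
      rw [FiniteField.coe_frobeniusAlgHom, hcardk]
    rw [← hmem, h1, aeval_algHom_apply, (hmem _).mpr ⟨i, rfl⟩, map_zero]
  choose t ht using hex
  have htinj : Function.Injective t := by
    intro i j hij
    have h1 : FiniteField.frobeniusAlgHom k kbar (α i) =
        FiniteField.frobeniusAlgHom k kbar (α j) := by
      rw [FiniteField.coe_frobeniusAlgHom, ← hcardk]
      change α i ^ Nat.card k = α j ^ Nat.card k
      rw [← ht, ← ht, hij]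
    exact hα ((FiniteField.frobeniusAlgHom k kbar).toRingHom.injective h1)
  let τ : Equiv.Perm (Fin f.natDegree) := Equiv.ofBijective t
    ((Finite.injective_iff_bijective).mp htinj)
  have hτ : ∀ i, α (τ i) = α i ^ Nat.card k := ht
  have hpow : ∀ (m : ℕ) (i), α ((τ ^ m) i) = α i ^ Nat.card k ^ m := by
    intro m
    induction m with
    | zero => intro i; rw [pow_zero, pow_zero, pow_one]; rfl
    | succ m ih => intro i; rw [pow_succ', Equiv.Perm.mul_apply, hτ, ih, ← pow_mul, pow_succ]
  refine ⟨τ, hτ, (Frob.parts_eq (fun x hx => ?_) fun m => ?_).symm⟩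
  · obtain ⟨g, hg, rfl⟩ := Multiset.mem_map.mp hx
    exact (irreducible_of_factor g hg).natDegree_pos
  · have h1 : Multiset.card (f.map (algebraMap k kbar)).roots = f.natDegree := by
      rw [hroots, Multiset.card_map]
      change Finset.univ.card = _
      rw [Finset.card_univ, Fintype.card_fin]
    rw [← ChebK.FacFin.countP_roots (algebraMap k kbar) hf0 h1 m, hroots, Multiset.countP_map,
      Nat.card_eq_fintype_card (α := {x // (τ ^ m) x = x}), Fintype.card_subtype]
    change (Finset.univ.filter _).card = (Finset.univ.filter _).card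
    congr 1
    ext i
    rw [Finset.mem_filter, Finset.mem_filter, ← hpow]
    exact and_congr_right fun _ => ⟨fun h => hα h, fun h => by rw [h]⟩

open UniqueFactorizationMonoid in
/-- **Stickelberger's parity theorem over a finite field** of odd characteristic: the discriminant
of a separable polynomial of degree `n` with `r` irreducible factors is a square iff `n - r` is
even. -/
theorem isSquare_discr_iff_even (h2 : (2 : k) ≠ 0) {f : k[X]} (hf : f.Separable) :
    IsSquare f.discr ↔ Even (f.natDegree - Multiset.card (factors f)) := by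
  classical
  rcases Nat.eq_zero_or_pos f.natDegree with h0 | h0
  · rw [h0, Nat.zero_sub, eq_C_of_natDegree_eq_zero h0, discr_C]
    exact ⟨fun _ => Even.zero, fun _ => IsSquare.one⟩
  have : Fintype k := Fintype.ofFinite k
  have hcardk : Nat.card k = Fintype.card k := Nat.card_eq_fintype_card
  obtain ⟨α, hα, hroots, hprod⟩ := exists_roots hf
  obtain ⟨τ, hτ, hparts⟩ := exists_perm hf hα hroots
  set c : kbar := algebraMap k kbar f.leadingCoeff with hc
  have hc0 : c ≠ 0 := by
    rw [hc, Ne, map_eq_zero, leadingCoeff_eq_zero]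
    exact hf.ne_zero
  set δ : kbar := (Matrix.vandermonde α).det with hδ
  have hδ0 : δ ≠ 0 := Matrix.det_vandermonde_ne_zero_iff.mpr hα
  set D : kbar := c ^ (f.natDegree - 1) * δ with hD
  have hD0 : D ≠ 0 := mul_ne_zero (pow_ne_zero _ hc0) hδ0
  have hdisc : algebraMap k kbar f.discr = D ^ 2 := by
    rw [← discr_map_of_field _ h0, hprod, discr_eq_vandermonde h0 hc0, hD, mul_pow, ← pow_mul,
      ← hδ]
    congr 2
    omega
  -- the parity
  have hr : Multiset.card (factors f) ≤ f.natDegree := by
    have h3 : (τ.partition.parts).sum = f.natDegree :=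
      τ.partition.parts_sum.trans (Fintype.card_fin _)
    have h4 : Multiset.card τ.partition.parts ≤ (τ.partition.parts).sum := by
      have h5 := Multiset.card_nsmul_le_sum (s := τ.partition.parts) (a := 1)
        fun x hx => τ.partition.parts_pos hx
      simpa using h5
    have h5 : Multiset.card τ.partition.parts = Multiset.card (factors f) := by
      rw [hparts, Multiset.card_map]
    rw [← h5]
    exact h4.trans h3.le
  have hsign : Equiv.Perm.sign τ = 1 ↔ Even (f.natDegree - Multiset.card (factors f)) := by
    rw [sign_eq_parts, hparts, Multiset.card_map, Fintype.card_fin]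
    obtain ⟨m, hm⟩ := Nat.exists_eq_add_of_le hr
    rw [hm, Nat.add_sub_cancel_left,
      show Multiset.card (factors f) + m + Multiset.card (factors f) =
        m + 2 * Multiset.card (factors f) by ring, pow_add, pow_mul, neg_one_sq, one_pow, mul_one]
    rcases Nat.even_or_odd m with he | ho
    · rw [he.neg_one_pow]
      exact ⟨fun _ => he, fun _ => rfl⟩
    · rw [ho.neg_one_pow]
      exact ⟨fun h => absurd h (by decide), fun h => absurd ho (Nat.not_odd_iff_even.mpr h)⟩
  rw [← hsign]
  -- Frobenius on `D`
  set φ := FiniteField.frobeniusAlgHom k kbar with hφ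
  have hφa : ∀ x, φ x = x ^ Nat.card k := fun x => by
    rw [hφ, FiniteField.coe_frobeniusAlgHom, hcardk]
  have hφδ : φ δ = ((Equiv.Perm.sign τ : ℤˣ) : ℤ) * δ := by
    have h3 : φ δ = (φ : kbar →+* kbar) (Matrix.vandermonde α).det := rfl
    rw [h3, RingHom.map_det, ← Matrix.det_permute]
    congr 1
    ext i j
    change φ (α i ^ (j : ℕ)) = α (τ i) ^ (j : ℕ)
    rw [map_pow, hφa, hτ]
  have hφD : φ D = ((Equiv.Perm.sign τ : ℤˣ) : ℤ) * D := by
    rw [hD, map_mul, map_pow, hc, AlgHom.commutes, hφδ]
    ring
  constructor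
  · rintro ⟨s, hs⟩
    by_contra hne
    have h4 := (Int.units_eq_one_or _).resolve_left hne
    rw [h4] at hφD
    have h5 : φ D = D := by
      rw [hs, map_mul, ← pow_two] at hdisc
      rcases sq_eq_sq_iff_eq_or_eq_neg.mp hdisc with h | h
      · rw [← h, AlgHom.commutes]
      · have h6 : D = -algebraMap k kbar s := by rw [h, neg_neg]
        rw [h6, map_neg, AlgHom.commutes]
    rw [h5] at hφD
    have h6 : (2 : kbar) * D = 0 := by
      push_cast at hφD
      linear_combination hφD
    rcases mul_eq_zero.mp h6 with h7 | h7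
    · apply h2
      have h8 : algebraMap k kbar 2 = 0 := by rw [map_ofNat]; exact h7
      exact (map_eq_zero _).mp h8
    · exact hD0 h7
  · intro h
    rw [h, Units.val_one, Int.cast_one, one_mul, hφa] at hφD
    obtain ⟨y, hy⟩ := exists_eq_of_pow hφD
    refine ⟨y, (algebraMap k kbar).injective ?_⟩
    rw [hdisc, map_mul, hy, pow_two]

open UniqueFactorizationMonoid in
/-- the same with the quadratic character -/
theorem quadraticChar_discr [Fintype k] [DecidableEq k] (h2 : (2 : k) ≠ 0) {f : k[X]}
    (hf : f.Separable) :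
    quadraticChar k f.discr = (-1) ^ (f.natDegree - Multiset.card (factors f)) := by
  have hd : f.discr ≠ 0 := (discr_ne_zero_iff hf.ne_zero).mpr hf
  have h := isSquare_discr_iff_even h2 hf
  rcases Nat.even_or_odd (f.natDegree - Multiset.card (factors f)) with he | ho
  · rw [he.neg_one_pow, quadraticChar_one_iff_isSquare hd]
    exact h.mpr he
  · rw [ho.neg_one_pow, quadraticChar_neg_one_iff_not_isSquare, h]
    exact Nat.not_even_iff_odd.mpr ho

end Roots

open UniqueFactorizationMonoid in
/-- **Stickelberger's theorem** for a monic polynomial `f ∈ ℤ[X]` of degree `n`: if the odd prime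
`p` does not divide the discriminant of `f` and `f mod p` has `r` irreducible factors, then
`(disc f / p) = (-1) ^ (n - r)`. -/
theorem legendreSym_discr_poly {p : ℕ} [Fact p.Prime] (hp2 : p ≠ 2) {f : ℤ[X]} (hm : f.Monic)
    (hd : ¬ (p : ℤ) ∣ f.discr) :
    legendreSym p f.discr = (-1) ^ (f.natDegree -
      Multiset.card (factors (f.map (Int.castRingHom (ZMod p))))) := by
  have h1 : (f.map (Int.castRingHom (ZMod p))).discr = ((f.discr : ℤ) : ZMod p) :=
    discr_map_of_monic _ hm
  have h2 : (2 : ZMod p) ≠ 0 := by
    intro h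
    have h3 : ((2 : ℕ) : ZMod p) = 0 := by exact_mod_cast h
    rw [ZMod.natCast_eq_zero_iff] at h3
    exact hp2 ((Nat.prime_dvd_prime_iff_eq Fact.out Nat.prime_two).mp h3)
  have h3 : (f.map (Int.castRingHom (ZMod p))).discr ≠ 0 := by
    rw [h1, Ne, ZMod.intCast_zmod_eq_zero_iff_dvd]
    exact hd
  have hf := (discr_ne_zero_iff (hm.map (Int.castRingHom (ZMod p))).ne_zero).mp h3
  have h4 := quadraticChar_discr h2 hf
  rw [h1, hm.natDegree_map] at h4
  exact h4

end Fermat.Agent.Cor.Parity
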