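import Fermat.Agent.Corollaries.Parity.Unramified
import Fermat.Agent.Corollaries.Parity.Delta
import Fermat.Agent.Corollaries.ZetaK.PerlisStuart

/-!
# The parity theorem of Pellet, Stickelberger and Voronoi

`K` a number field of degree `n`, `p` a prime number which does not divide the discriminant `d` of
`K`, `r` the number of prime ideals of `K` above `p`. Then `(d / p) = (-1) ^ (n - r)` for `p` odd
(`legendreSym_discr`), and for `p = 2`: `d ≡ 1 mod 8` if `n - r` is even, `d ≡ 5 mod 8` if `n - r` is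
odd (`discr_mod_eight`).
-/

set_option autoImplicit false

namespace Fermat.Agent.Cor.Parity

open NumberField IsDedekindDomain
open Fermat.Agent.Frob Fermat.Agent.FrobDensity Fermat.Agent.LT.Tower.Fr
open Fermat.Agent.Classic.Disc Fermat.Agent.Cor.Frob

local notation "Qbar" => AlgebraicClosure ℚ

variable (K : Type*) [Field K] [NumberField K] {p : ℕ}

open Classical in
/-- The resolvent modulo a place above an unramified prime `p`. -/
theorem exists_residue (hp : p.Prime) (h : ¬ (p : ℤ) ∣ discr K) :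
    ∃ (a b : ℤ) (κ : Type) (_ : Field κ) (_ : CharP κ p) (t : κ), discr K = a ^ 2 - 4 * b ∧
      t ^ 2 = a * t - b ∧
      ((Even (Module.finrank ℚ K + (above K p).card) ∧ t ^ p = t) ∨
        (Odd (Module.finrank ℚ K + (above K p).card) ∧ t ^ p = a - t)) := by
  obtain ⟨A, hA, φ, hφ⟩ := exists_frobenius p hp
  obtain ⟨a, b, P, hP, hd, hPab, h1, h2⟩ := exists_resolvent K
  let P' : Zbar := ⟨P, hP⟩
  have hP' : P' ^ 2 = (a : Zbar) * P' - (b : Zbar) := by
    apply Subtype.ext
    simpa using hPab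
  have hs := sign_embPerm (K := K) hp h hA hφ
  refine ⟨a, b, IsLocalRing.ResidueField A, inferInstance, charP_residue hp hA, redA A P', hd,
    ?_, ?_⟩
  · rw [← map_pow, hP', map_sub, map_mul, map_intCast, map_intCast]
  · rcases Nat.even_or_odd (Module.finrank ℚ K + (above K p).card) with he | ho
    · left
      rw [he.neg_one_pow] at hs
      refine ⟨he, ?_⟩
      rw [← redA_frob hφ]
      congr 1
      exact Subtype.ext (h1 φ hs)
    · right
      rw [ho.neg_one_pow] at hs
      refine ⟨ho, ?_⟩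
      rw [← redA_frob hφ]
      have h3 : φ • P' = (a : Zbar) - P' := by
        apply Subtype.ext
        change φ P = _
        rw [h2 φ hs]
        simp only [AddSubgroupClass.coe_sub, SubringClass.coe_intCast]
        rfl
      rw [h3, map_sub, map_intCast]

/-- **The parity theorem of Pellet, Stickelberger and Voronoi**, `p` odd, in terms of places. -/
theorem legendreSym_discr_above [Fact p.Prime] (hp2 : p ≠ 2) (h : ¬ (p : ℤ) ∣ discr K) :
    legendreSym p (discr K) = (-1) ^ (Module.finrank ℚ K + (above K p).card) := by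
  have hp : p.Prime := Fact.out
  obtain ⟨a, b, κ, _, _, t, hd, ht, hcase⟩ := exists_residue K hp h
  let _ : Algebra (ZMod p) κ := ZMod.algebra κ p
  set δ : κ := 2 * t - a with hδ
  have hδ2 : δ ^ 2 = ((discr K : ℤ) : κ) := by
    rw [hd, hδ]
    push_cast
    linear_combination 4 * ht
  have hd0 : ((discr K : ℤ) : κ) ≠ 0 := by
    rw [Ne, CharP.intCast_eq_zero_iff κ p]
    exact h
  have hδ0 : δ ≠ 0 := by
    intro h0
    rw [h0] at hδ2
    exact hd0 (by rw [← hδ2]; ring)
  have hint : ∀ m : ℤ, (m : κ) ^ p = m := by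
    intro m
    have h1 : ((m : ZMod p)) ^ p = m := ZMod.pow_card _
    have h2 := congrArg (algebraMap (ZMod p) κ) h1
    rwa [map_pow, map_intCast] at h2
  have h2κ : (2 : κ) ≠ 0 := by
    intro h0
    have h1 : ((2 : ℤ) : κ) = 0 := by exact_mod_cast h0
    rw [CharP.intCast_eq_zero_iff κ p] at h1
    have h3 : p ∣ 2 := by exact_mod_cast h1
    exact hp2 ((Nat.prime_dvd_prime_iff_eq hp Nat.prime_two).mp h3)
  have hδp : δ ^ p = 2 * t ^ p - a := by
    have h3 : δ ^ p = (2 * t) ^ p - (a : κ) ^ p := by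
      rw [hδ, sub_pow_char]
    rw [h3, mul_pow, hint]
    congr 2
    exact_mod_cast hint 2
  -- `δ ^ (p - 1) = (legendreSym p d)`
  have hodd : p = 2 * (p / 2) + 1 := (Nat.two_mul_div_two_add_one_of_odd
    (hp.odd_of_ne_two hp2)).symm
  have hleg : ((legendreSym p (discr K) : ℤ) : κ) * δ = δ ^ p := by
    have h4 : ((legendreSym p (discr K) : ℤ) : κ) = ((discr K : ℤ) : κ) ^ (p / 2) := by
      have h5 := congrArg (algebraMap (ZMod p) κ) (legendreSym.eq_pow p (discr K))
      rwa [map_pow, map_intCast, map_intCast] at h5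
    rw [h4, ← hδ2, ← pow_mul, ← pow_succ, ← hodd]
  have hne : ((discr K : ℤ) : ZMod p) ≠ 0 := by
    rw [Ne, ZMod.intCast_zmod_eq_zero_iff_dvd]
    exact h
  rcases hcase with ⟨he, htp⟩ | ⟨ho, htp⟩
  · rw [he.neg_one_pow]
    rcases legendreSym.eq_one_or_neg_one p hne with h5 | h5
    · exact h5
    · exfalso
      rw [h5, hδp, htp, ← hδ, Int.cast_neg, Int.cast_one, neg_one_mul] at hleg
      have h6 : 2 * δ = 0 := by linear_combination -hleg
      exact (mul_ne_zero h2κ hδ0) h6
  · rw [ho.neg_one_pow]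
    rcases legendreSym.eq_one_or_neg_one p hne with h5 | h5
    · exfalso
      rw [h5, hδp, htp, Int.cast_one, one_mul] at hleg
      have h6 : 2 * δ = 0 := by
        rw [hδ] at hleg ⊢
        linear_combination hleg
      exact (mul_ne_zero h2κ hδ0) h6
    · exact h5

/-- **The parity theorem**, `p = 2`, in terms of places. -/
theorem discr_mod_eight_above (h : ¬ (2 : ℤ) ∣ discr K) :
    (Even (Module.finrank ℚ K + (above K 2).card) ∧ discr K % 8 = 1) ∨
      (Odd (Module.finrank ℚ K + (above K 2).card) ∧ discr K % 8 = 5) := by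
  obtain ⟨a, b, κ, _, _, t, hd, ht, hcase⟩ := exists_residue K Nat.prime_two h
  have h2 : (2 : κ) = 0 := by exact_mod_cast CharP.cast_eq_zero κ 2
  have ha : a % 2 = 1 := by
    by_contra h0
    have h1 : (2 : ℤ) ∣ a := by omega
    obtain ⟨k, rfl⟩ := h1
    exact h (by rw [hd]; exact ⟨2 * k ^ 2 - 2 * b, by ring⟩)
  have haκ : (a : κ) = 1 := by
    obtain ⟨k, hk⟩ : ∃ k, a = 2 * k + 1 := ⟨a / 2, by omega⟩
    rw [hk]
    push_cast
    rw [h2, zero_mul, zero_add]
  have ha8 : ∃ m, a ^ 2 = 8 * m + 1 := by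
    obtain ⟨k, hk⟩ : ∃ k, a = 2 * k + 1 := ⟨a / 2, by omega⟩
    obtain ⟨l, hl⟩ : ∃ l, k * (k + 1) = 2 * l := by
      obtain ⟨l, hl⟩ := Int.even_mul_succ_self k
      exact ⟨l, by rw [hl]; ring⟩
    exact ⟨l, by rw [hk]; linear_combination 4 * hl⟩
  obtain ⟨m, hm⟩ := ha8
  have hb2 : ∀ c : ℤ, ((c : ℤ) : κ) = 0 ↔ (2 : ℤ) ∣ c := fun c => by
    have := CharP.intCast_eq_zero_iff κ 2 c
    exact_mod_cast this
  rcases hcase with ⟨he, htp⟩ | ⟨ho, htp⟩
  · left
    refine ⟨he, ?_⟩
    have h1 : ((b : ℤ) : κ) = 0 := by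
      rw [haκ] at ht
      linear_combination ht - htp
    obtain ⟨k, hk⟩ := (hb2 b).mp h1
    rw [hd, hm, hk]
    omega
  · right
    refine ⟨ho, ?_⟩
    have h1 : ((b - 1 : ℤ) : κ) = 0 := by
      rw [haκ] at ht htp
      push_cast
      linear_combination ht - htp + (t - 1) * h2
    obtain ⟨k, hk⟩ := (hb2 _).mp h1
    have hb : b = 2 * k + 1 := by omega
    rw [hd, hm, hb]
    omega

lemma card_above_le' (hp : p.Prime) : (above K p).card ≤ Module.finrank ℚ K := by
  refine le_trans ?_ (fSum_le (K := K) hp)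
  rw [fSum, Finset.card_eq_sum_ones]
  exact Finset.sum_le_sum fun v _ => fdeg_pos v

lemma parity_iff {n r : ℕ} (h : r ≤ n) : (Even (n + r) ↔ Even (n - r)) ∧
    (Odd (n + r) ↔ Odd (n - r)) := by
  obtain ⟨k, rfl⟩ := Nat.exists_eq_add_of_le h
  rw [Nat.add_sub_cancel_left]
  constructor <;> constructor <;> intro h1 <;>
    first
    | (rw [Nat.even_iff] at *; omega)
    | (rw [Nat.odd_iff] at *; omega)

/-- **The parity theorem of Pellet (1878), Stickelberger (1897) and Voronoi**: `p` an odd prime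
unramified in `K`, `n = [K : ℚ]`, `r` the number of prime ideals of `K` above `p`:
`(d / p) = (-1) ^ (n - r)`. -/
theorem legendreSym_discr [Fact p.Prime] (hp2 : p ≠ 2) (h : ¬ (p : ℤ) ∣ discr K) :
    legendreSym p (discr K) =
      (-1) ^ (Module.finrank ℚ K - ((Ideal.span {(p : ℤ)}).primesOver (𝓞 K)).ncard) := by
  have hp : p.Prime := Fact.out
  rw [legendreSym_discr_above K hp2 h, ncard_primesOver hp]
  rcases Nat.even_or_odd (Module.finrank ℚ K + (above K p).card) with he | ho
  · rw [he.neg_one_pow, ((parity_iff (card_above_le' K hp)).1.mp he).neg_one_pow]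
  · rw [ho.neg_one_pow, ((parity_iff (card_above_le' K hp)).2.mp ho).neg_one_pow]

/-- **The parity theorem for `p = 2`**: the discriminant is `1` modulo `8` if `n - r` is even and
`5` modulo `8` if `n - r` is odd. -/
theorem discr_mod_eight (h : ¬ (2 : ℤ) ∣ discr K) :
    discr K % 8 = if Even (Module.finrank ℚ K -
      ((Ideal.span {((2 : ℕ) : ℤ)}).primesOver (𝓞 K)).ncard) then 1 else 5 := by
  rw [ncard_primesOver Nat.prime_two]
  rcases discr_mod_eight_above K h with ⟨he, h1⟩ | ⟨ho, h1⟩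
  · rw [if_pos ((parity_iff (card_above_le' K Nat.prime_two)).1.mp he), h1]
  · rw [if_neg (Nat.not_even_iff_odd.mpr
      ((parity_iff (card_above_le' K Nat.prime_two)).2.mp ho)), h1]

end Fermat.Agent.Cor.Parity
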