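import Fermat.Agent.Corollaries.ZetaK.FrobCor
import Fermat.Agent.Classic.Level.Disc.Tame
import Fermat.Agent.Classic.Level.Disc.Orbits

/-!
# Frobenius at the unramified primes

`K` a number field, `p` a prime number. The embeddings of `K` in `ℚ̄` have distinct reductions at the
places of `ℚ̄` above `p` iff `p` does not divide the discriminant (`good_iff`). For such `p` the
residue degrees of the places of `K` above `p` are the lengths of the cycles of every Frobenius
element at `p` on the embeddings (`decType_eq_of_not_dvd`).
-/

set_option autoImplicit false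

namespace Fermat.Agent.Cor.Parity

open NumberField IsDedekindDomain
open Fermat.Agent.Frob Fermat.Agent.FrobDensity Fermat.Agent.LT.Tower.Fr
open Fermat.Agent.Classic.Disc Fermat.Agent.Classic.Emb Fermat.Agent.Cor.Frob

local notation "Qbar" => AlgebraicClosure ℚ

variable {K : Type*} [Field K] [NumberField K] {p : ℕ}

lemma fSum_le (hp : p.Prime) : fSum K p ≤ Module.finrank ℚ K := by
  rw [← sum_ram_fdeg (F := K) hp, fSum]
  exact Finset.sum_le_sum fun v _ => Nat.le_mul_of_pos_left _ (ram_pos v)

/-- `p` is unramified in `K` iff the sum of the residue degrees is the degree. -/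
theorem fSum_eq_iff (hp : p.Prime) :
    fSum K p = Module.finrank ℚ K ↔ ¬ (p : ℤ) ∣ discr K := by
  have : Fact p.Prime := ⟨hp⟩
  have hval : padicValNat p (discr K).natAbs = 0 ↔ ¬ (p : ℤ) ∣ discr K := by
    rw [padicValNat.eq_zero_iff, Int.natCast_dvd]
    have h1 := Int.natAbs_ne_zero.mpr (discr_ne_zero K)
    have h2 := hp.ne_one
    tauto
  constructor
  · intro h
    rw [← hval]
    have h1 : ∀ v ∈ above K p, ram v = 1 := by
      have h2 : ∑ v ∈ above K p, fdeg v = ∑ v ∈ above K p, ram v * fdeg v := by
        rw [sum_ram_fdeg hp, ← h, fSum]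
      intro v hv
      have h3 := (Finset.sum_eq_sum_iff_of_le fun w _ =>
        Nat.le_mul_of_pos_left _ (ram_pos w)).mp h2 v hv
      exact Nat.eq_of_mul_eq_mul_right (fdeg_pos v) (by rw [one_mul]; exact h3.symm)
    have h4 := tame (F := K) hp fun v hv => by
      rw [h1 v hv]
      exact fun h5 => hp.one_lt.ne' (Nat.dvd_one.mp h5)
    omega
  · intro h
    have h1 := le_wild (F := K) hp
    rw [hval.mpr h, zero_add] at h1
    exact le_antisymm (fSum_le hp) h1

theorem good_iff_fSum (hp : p.Prime) : Good K p ↔ fSum K p = Module.finrank ℚ K := by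
  constructor
  · intro hG
    obtain ⟨A, hA, -⟩ := exists_frobenius p hp
    rw [← card_range_redτ hp hA, ← natCard_emb]
    exact Nat.card_range_of_injective fun i j h => hG A hA i j h
  · intro h A hA i j hij
    have h1 := card_range_redτ (F := K) hp hA
    rw [h, ← natCard_emb] at h1
    have h2 : Function.Injective fun i : K →+* Qbar => redτ A i := by
      have h3 : Function.Bijective (Set.rangeFactorization fun i : K →+* Qbar => redτ A i) :=
        (Nat.bijective_iff_surjective_and_card _).mpr ⟨Set.rangeFactorization_surjective, h1.symm⟩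
      exact fun a b hab => h3.1 (Subtype.ext hab)
    exact h2 hij

/-- The embeddings of `K` in `ℚ̄` have distinct reductions at `p` iff `p` is unramified in `K`. -/
theorem good_iff (hp : p.Prime) : Good K p ↔ ¬ (p : ℤ) ∣ discr K :=
  (good_iff_fSum hp).trans (fSum_eq_iff hp)

/-- **The cycle type of Frobenius at every unramified prime**: the lengths of the cycles of a
Frobenius element at `p` on the embeddings of `K` are the residue degrees of the places of `K`
above `p`. -/
theorem decType_eq_of_not_dvd (hp : p.Prime) (h : ¬ (p : ℤ) ∣ discr K) {A : ValuationSubring Qbar}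
    (hA : A.LiesOverPrime p) {σ : GQ} (hσ : A.IsFrobeniusAt σ p) :
    decType K p = cycType K (embPerm K σ) := by
  classical
  have hG := (good_iff hp).mpr h
  rw [cycType]
  convert parts_eq (s := embPerm K σ) (m := decType K p) (fun x hx => ?_) fun k => ?_
  · obtain ⟨v, -, rfl⟩ := Multiset.mem_map.mp hx
    exact fdeg_pos v
  · have h1 := sum_fdeg hp hG hA hσ k
    rw [decType, Multiset.filter_map]
    have h2 : ∀ j : K →+* Qbar, (embPerm K σ ^ k) j = j ↔ ∀ x, (σ ^ k) (j x) = j x := by
      intro j
      rw [← map_pow]
      exact ⟨fun h x => RingHom.congr_fun h x, fun h => RingHom.ext h⟩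
    rw [Nat.card_congr (Equiv.subtypeEquivRight h2), ← h1]
    rfl

/-- **The number of cycles** of Frobenius at an unramified prime is the number of places above. -/
theorem card_above_eq (hp : p.Prime) (h : ¬ (p : ℤ) ∣ discr K) {A : ValuationSubring Qbar}
    (hA : A.LiesOverPrime p) {σ : GQ} (hσ : A.IsFrobeniusAt σ p) :
    (above K p).card = Multiset.card (cycType K (embPerm K σ)) := by
  rw [← decType_eq_of_not_dvd hp h hA hσ, card_decType]

open Classical in
/-- **The sign of Frobenius** at an unramified prime is `(-1) ^ (n - r)`. -/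
theorem sign_embPerm (hp : p.Prime) (h : ¬ (p : ℤ) ∣ discr K) {A : ValuationSubring Qbar}
    (hA : A.LiesOverPrime p) {σ : GQ} (hσ : A.IsFrobeniusAt σ p) :
    Equiv.Perm.sign (embPerm K σ) = (-1) ^ (Module.finrank ℚ K + (above K p).card) := by
  have h1 := card_above_eq hp h hA hσ
  rw [cycType, Equiv.Perm.parts_partition, Multiset.card_add, Multiset.card_replicate] at h1
  have h2 : (embPerm K σ).cycleType.sum = (embPerm K σ).support.card :=
    Equiv.Perm.sum_cycleType _
  have h3 : (embPerm K σ).support.card ≤ Fintype.card (K →+* Qbar) := Finset.card_le_univ _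
  have h4 : Fintype.card (K →+* Qbar) = Module.finrank ℚ K := by
    rw [← Nat.card_eq_fintype_card, natCard_emb]
  rw [Equiv.Perm.sign_of_cycleType, h2]
  have h5 : Module.finrank ℚ K + (above K p).card =
      ((embPerm K σ).support.card + Multiset.card (embPerm K σ).cycleType) +
        2 * (Fintype.card (K →+* Qbar) - (embPerm K σ).support.card) := by
    rw [← h4]
    convert_to Fintype.card (K →+* Qbar) + (above K p).card = _
    omega
  rw [h5, pow_add _ (_ + _), pow_mul, neg_one_sq, one_pow, mul_one]

end Fermat.Agent.Cor.Parity
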